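/-
T1B / TORIC50, model side (d2) (helper94), part A: **the trace of the Čech norm system is the field
trace, and (K2) for `chartMorOfSub` from a `K2Datum`**.

`F' ⊂ F` fields (through a degeneracy map `Phi = alpha` or `beta`), `C' ⊂ F'`, `C ⊂ F` subalgebras
with fraction fields `F'`, `F`, `C` a finite projective `C'`-algebra through `Phi`.

* `coe_projTr_eq_trace` : helper84's trace `Norm84.projTr C' C` of the finite projective algebra
  `C / C'` is the field trace `Algebra.trace F' F` (localisation at `C' ∖ 0`, then the free case);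
* `trace_mem` : hence `Tr_{F/F'}(C) ⊆ C'`;
* `k2_of_projective` : (K2) `Phi (projTr C' C f) - f ∈ vertIdeal π C O1` from helper98's
  `Toric98.K2Datum` (via `Toric98.k2_of_datum`);
* `k2_chartMorOfSub` : the hypothesis `hK2α` / `hK2β` of `Toric50.Master.hfo_of_fibre`,
  `Toric98.exists_P_S_of_fibre` for the trace map `trMap` of the norm system of helper11's
  `Toric11.chartMorOfSub` and `P = vertIdeal π (B0 ⊔ B1) O1` (the `P` of
  `Toric98.FibreDatum.ofModel`; for `Q` swap the roles of `O1`, `O2` in the `K2Datum`).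
-/
import Mathlib
import Fermat.Agent.T1B.Toric11.ChartMorSub
import Fermat.Agent.T1B.Toric98.TraceInst
import Fermat.Agent.T1B.Norm84.BaseChange

set_option autoImplicit false
set_option linter.unusedSectionVars false
set_option linter.unusedVariables false
set_option linter.style.haveILetI false

noncomputable section

namespace Fermat.Agent.T1B.K2Model94

open Fermat.Agent.T1B.Norm84 Fermat.Agent.T1B.Toric98 Fermat.Agent.T1B.Toric11
open Fermat.Agent.T1.Coh60 Fermat.Agent.T1B.NormModel99 Fermat.Agent.T1.CechFormal70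
open scoped nonZeroDivisors

/-! ### Fraction fields of subalgebras -/

section Frac

variable {R F : Type*} [CommRing R] [Field F] [Algebra R F]

/-- `F = Frac B` from the element-wise statement (shape of `TwoChartModel.frac0`). -/
theorem isFractionRing_sub (B : Subalgebra R F)
    (frac : ∀ x : F, ∃ a ∈ B, ∃ b ∈ B, b ≠ 0 ∧ x * b = a) : IsFractionRing ↥B F := by
  refine IsFractionRing.of_field ↥B F fun z => ?_
  obtain ⟨a, ha, b, hb, hb0, hab⟩ := frac z
  refine ⟨⟨a, ha⟩, ⟨b, hb⟩, ?_⟩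
  show z = a / b
  rw [eq_div_iff hb0, hab]

/-- the element-wise statement passes to a bigger subalgebra. -/
theorem frac_mono {B B' : Subalgebra R F} (h : B ≤ B')
    (frac : ∀ x : F, ∃ a ∈ B, ∃ b ∈ B, b ≠ 0 ∧ x * b = a) :
    ∀ x : F, ∃ a ∈ B', ∃ b ∈ B', b ≠ 0 ∧ x * b = a := fun x => by
  obtain ⟨a, ha, b, hb, hb0, hab⟩ := frac x
  exact ⟨a, h ha, b, h hb, hb0, hab⟩

end Frac

/-! ### `projTr` is the field trace -/

section Bridge

variable {R F' F : Type*} [CommRing R] [Field F'] [Field F] [Algebra R F'] [Algebra R F]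
  [Algebra F' F]
  (C' : Subalgebra R F') (C : Subalgebra R F) [Algebra ↥C' ↥C] [Module.Finite ↥C' ↥C]
  [Module.Projective ↥C' ↥C]
  (halg : ∀ x : ↥C', ((algebraMap ↥C' ↥C x : ↥C) : F) = algebraMap F' F (x : F'))
  (hfrac' : ∀ x : F', ∃ a ∈ C', ∃ b ∈ C', b ≠ 0 ∧ x * b = a)
  (hfrac : ∀ x : F, ∃ a ∈ C, ∃ b ∈ C, b ≠ 0 ∧ x * b = a)

include halg in
theorem algebraMap_injective_sub : Function.Injective (algebraMap ↥C' ↥C) := by
  intro a b hab
  have h1 : algebraMap F' F (a : F') = algebraMap F' F (b : F') := by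
    rw [← halg, ← halg, hab]
  exact Subtype.ext ((algebraMap F' F).injective h1)

include halg hfrac' hfrac in
/-- `F` is finite over `F'`. -/
theorem finite_field_of_sub : Module.Finite F' F := by
  haveI : IsFractionRing ↥C' F' := isFractionRing_sub C' hfrac'
  haveI : IsFractionRing ↥C F := isFractionRing_sub C hfrac
  haveI : IsScalarTower ↥C' F' F := IsScalarTower.of_algebraMap_eq fun _ => rfl
  haveI : IsScalarTower ↥C' ↥C F := IsScalarTower.of_algebraMap_eq fun y => (halg y).symm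
  haveI : FaithfulSMul ↥C' ↥C :=
    (faithfulSMul_iff_algebraMap_injective ↥C' ↥C).mpr (algebraMap_injective_sub C' C halg)
  haveI : Algebra.IsAlgebraic ↥C' ↥C := Algebra.IsIntegral.isAlgebraic
  haveI : IsLocalization (Algebra.algebraMapSubmonoid ↥C (↥C')⁰) F := inferInstance
  exact Module.Finite.of_isLocalization ↥C' ↥C (↥C')⁰

include halg hfrac' hfrac in
/-- **The trace of the finite projective algebra `C / C'` is the field trace of `F / F'`.** -/
theorem coe_projTr_eq_trace (x : ↥C) :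
    ((projTr ↥C' ↥C x : ↥C') : F') = Algebra.trace F' F (x : F) := by
  haveI : IsFractionRing ↥C' F' := isFractionRing_sub C' hfrac'
  haveI : IsFractionRing ↥C F := isFractionRing_sub C hfrac
  haveI : IsScalarTower ↥C' F' F := IsScalarTower.of_algebraMap_eq fun _ => rfl
  haveI : IsScalarTower ↥C' ↥C F := IsScalarTower.of_algebraMap_eq fun y => (halg y).symm
  haveI : FaithfulSMul ↥C' ↥C :=
    (faithfulSMul_iff_algebraMap_injective ↥C' ↥C).mpr (algebraMap_injective_sub C' C halg)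
  haveI : Algebra.IsAlgebraic ↥C' ↥C := Algebra.IsIntegral.isAlgebraic
  haveI : IsLocalization (Algebra.algebraMapSubmonoid ↥C (↥C')⁰) F := inferInstance
  haveI : Module.Finite F' F := Module.Finite.of_isLocalization ↥C' ↥C (↥C')⁰
  have h1 := projTr_of_isLocalization (R := ↥C') (S := F') (C := ↥C) (C' := F) (↥C')⁰ x
  rw [projTr_eq_trace] at h1
  exact h1.symm

include halg hfrac' hfrac in
/-- `Tr_{F/F'}(C) ⊆ C'`. -/
theorem trace_mem (f : F) (hf : f ∈ C) : Algebra.trace F' F f ∈ C' := by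
  rw [← coe_projTr_eq_trace C' C halg hfrac' hfrac ⟨f, hf⟩]
  exact (projTr ↥C' ↥C ⟨f, hf⟩).2

include halg in
theorem algebraMap_mem (x : F') (hx : x ∈ C') : algebraMap F' F x ∈ C := by
  rw [← halg ⟨x, hx⟩]
  exact (algebraMap ↥C' ↥C ⟨x, hx⟩).2

variable [IsScalarTower R F' F]

include halg hfrac' hfrac in
/-- **(K2) for a finite projective pair of subalgebras**, from helper98's `K2Datum`: the pull-back of
the trace of `f` is congruent to `f` modulo the vertical ideal of `O1`. -/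
theorem k2_of_projective {π : R} {p : ℕ} {O1 O2 : ValuationSubring F}
    (D : K2Datum (algebraMap R F' π) p O1 O2)
    (le1 : ∀ x ∈ C, x ∈ O1) (le2 : ∀ x ∈ C, x ∈ O2) (f : ↥C) :
    algebraMap ↥C' ↥C (projTr ↥C' ↥C f) - f ∈ vertIdeal π C O1 le1 := by
  have h := k2_of_datum D C C' le1 le2 (trace_mem C' C halg hfrac' hfrac)
    (algebraMap_mem C' C halg) f
  have heq : pullRestrict C C' (algebraMap_mem C' C halg)
      (traceRestrict C C' (trace_mem C' C halg hfrac' hfrac) f)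
        = algebraMap ↥C' ↥C (projTr ↥C' ↥C f) := by
    apply Subtype.ext
    rw [coe_pullRestrict, coe_traceRestrict, halg, coe_projTr_eq_trace C' C halg hfrac' hfrac]
  rw [heq] at h
  exact h

end Bridge

/-! ### (K2) for the norm system of `chartMorOfSub` -/

section ChartMor

universe u

variable {R F' F : Type u} [CommRing R] [Field F'] [Field F] [Algebra R F'] [Algebra R F]
  (Phi : F' →ₐ[R] F) (B0' B1' : Subalgebra R F') (B0 B1 : Subalgebra R F)
  (h0 : ∀ b : ↥B0', (Phi.comp B0'.val) b ∈ B0) (h1 : ∀ b : ↥B1', (Phi.comp B1'.val) b ∈ B1)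
  (t : F') (ht : t ≠ 0) (ht0 : t ∈ B0') (ht1 : t⁻¹ ∈ B1')
  (ov0' : ∀ x ∈ B1', ∃ k : ℕ, t ^ k * x ∈ B0') (ov1' : ∀ x ∈ B0', ∃ k : ℕ, t⁻¹ ^ k * x ∈ B1')
  (ov0 : ∀ x ∈ B1, ∃ k : ℕ, Phi t ^ k * x ∈ B0) (ov1 : ∀ x ∈ B0, ∃ k : ℕ, (Phi t)⁻¹ ^ k * x ∈ B1)
  (fin0 : ChartFinite (Phi.comp B0'.val) B0 h0) (proj0 : ChartProjective (Phi.comp B0'.val) B0 h0)
  (fin1 : ChartFinite (Phi.comp B1'.val) B1 h1) (proj1 : ChartProjective (Phi.comp B1'.val) B1 h1)

attribute [local instance] algebra0 algebra1 isScalarTower0 isScalarTower1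

variable {g g' : ℕ} (D : CechData R ↥B0 ↥B1 ↥(B0 ⊔ B1) g)
  (D' : CechData R ↥B0' ↥B1' ↥(B0' ⊔ B1') g')
  (hρ0 : ∀ x, D.ρ0 x = algebraMap ↥B0 ↥(B0 ⊔ B1) x)
  (hρ1 : ∀ x, D.ρ1 x = algebraMap ↥B1 ↥(B0 ⊔ B1) x)
  (hρ0' : ∀ x, D'.ρ0 x = algebraMap ↥B0' ↥(B0' ⊔ B1') x)
  (hρ1' : ∀ x, D'.ρ1 x = algebraMap ↥B1' ↥(B0' ⊔ B1') x)

/-- **(K2) for the Čech norm system of `chartMorOfSub`**: the hypothesis `hK2α` (resp. `hK2β`, with
the roles of `O1`, `O2` exchanged) of `Toric50.Master.hfo_of_fibre` with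
`α := (chartMorOfSub …).α01.toLinearMap`, from helper98's `K2Datum` for the field extension
`F / Phi(F')`. -/
theorem k2_chartMorOfSub {π : R} {p : ℕ} {O1 O2 : ValuationSubring F}
    (K : letI := Phi.toRingHom.toAlgebra; K2Datum (algebraMap R F' π) p O1 O2)
    (le1 : ∀ x ∈ B0 ⊔ B1, x ∈ O1) (le2 : ∀ x ∈ B0 ⊔ B1, x ∈ O2)
    (hfrac' : ∀ x : F', ∃ a ∈ B0' ⊔ B1', ∃ b ∈ B0' ⊔ B1', b ≠ 0 ∧ x * b = a)
    (hfrac : ∀ x : F, ∃ a ∈ B0 ⊔ B1, ∃ b ∈ B0 ⊔ B1, b ≠ 0 ∧ x * b = a)
    (f : ↥(B0 ⊔ B1)) :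
    ((chartMorOfSub Phi B0' B1' B0 B1 h0 h1 t ht ht0 ht1 ov0' ov1' ov0 ov1 fin0 proj0 fin1
        proj1).α01.toLinearMap
      (((chartMorOfSub Phi B0' B1' B0 B1 h0 h1 t ht ht0 ht1 ov0' ov1' ov0 ov1 fin0 proj0 fin1
        proj1).normSys D D' hρ0 hρ1 hρ0' hρ1').trMap f)) - f
      ∈ vertIdeal π (B0 ⊔ B1) O1 le1 := by
  letI : Algebra F' F := Phi.toRingHom.toAlgebra
  haveI : IsScalarTower R F' F := IsScalarTower.of_algebraMap_eq fun r => (Phi.commutes r).symm
  set M := chartMorOfSub Phi B0' B1' B0 B1 h0 h1 t ht ht0 ht1 ov0' ov1' ov0 ov1 fin0 proj0 fin1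
    proj1 with hM
  letI := M.alg01
  haveI := M.finite01
  haveI := M.projective01
  have halg : ∀ x : ↥(B0' ⊔ B1'),
      ((algebraMap ↥(B0' ⊔ B1') ↥(B0 ⊔ B1) x : ↥(B0 ⊔ B1)) : F) = algebraMap F' F (x : F') :=
    fun x => rfl
  exact k2_of_projective (B0' ⊔ B1') (B0 ⊔ B1) halg hfrac' hfrac K le1 le2 f

end ChartMor

end Fermat.Agent.T1B.K2Model94
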