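/-
T1B / TORIC50, model side (d2) (helper94), part B1: **transport of helper98's `K2Datum` along a pair
of field isomorphisms**.

`σ₀ : F₀ ≃+* G₀`, `σ : F ≃+* G` with `σ ∘ algebraMap F₀ F = algebraMap G₀ G ∘ σ₀`, valuation
subrings `O1 O2 ⊂ F`, `O1' O2' ⊂ G` with `σ x ∈ O_j' ↔ x ∈ O_j`: a `K2Datum ϖ p O1 O2` gives a
`K2Datum (σ₀ ϖ) p O1' O2'`.

Application (`K2Model94/Model.lean`): `F₀ = G₀ = F_{M'}`, `F = G = F_{M'q}` with the two algebra
structures `alpha`, `beta`, `σ₀ = W_{M'}`, `σ = W_{M'q}` (Fricke involutions, `W_{M'q} ∘ alpha =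
beta ∘ W_{M'}`, `W_{M'q}` exchanges `O1` and `O2`): the `K2Datum` for `beta` (with `O2`, `O1`) is the
transport of the `K2Datum` for `alpha` (with `O1`, `O2`).
-/
import Mathlib
import Fermat.Agent.T1B.Toric98.Trace

set_option autoImplicit false
set_option linter.unusedSectionVars false

namespace Fermat.Agent.T1B.K2Model94

open Fermat.Agent.T1B.Toric98

variable {F₀ F G₀ G : Type*} [Field F₀] [Field F] [Field G₀] [Field G] [Algebra F₀ F]
  [Algebra G₀ G] (σ₀ : F₀ ≃+* G₀) (σ : F ≃+* G)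
  (hσ : ∀ x : F₀, σ (algebraMap F₀ F x) = algebraMap G₀ G (σ₀ x))

include hσ in
theorem piO_map {ϖ : F₀} {O : ValuationSubring F} {O' : ValuationSubring G}
    (hO : ∀ x : F, σ x ∈ O' ↔ x ∈ O) {x : F} (h : PiO ϖ O x) : PiO (σ₀ ϖ) O' (σ x) := by
  obtain ⟨c, hc, rfl⟩ := h
  exact ⟨σ c, (hO c).mpr hc, by rw [map_mul, hσ]⟩

include hσ in
theorem piO_of_map {ϖ : F₀} {O : ValuationSubring F} {O' : ValuationSubring G}
    (hO : ∀ x : F, σ x ∈ O' ↔ x ∈ O) {x : F} (h : PiO (σ₀ ϖ) O' (σ x)) : PiO ϖ O x := by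
  obtain ⟨c, hc, h⟩ := h
  refine ⟨σ.symm c, (hO _).mp (by rw [σ.apply_symm_apply]; exact hc), ?_⟩
  apply σ.injective
  rw [h, map_mul, hσ, σ.apply_symm_apply]

/-- **Transport of a `K2Datum`** along `(σ₀, σ)`. -/
def K2Datum.transport {ϖ : F₀} {p : ℕ} {O1 O2 : ValuationSubring F}
    {O1' O2' : ValuationSubring G}
    (hO1 : ∀ x : F, σ x ∈ O1' ↔ x ∈ O1) (hO2 : ∀ x : F, σ x ∈ O2' ↔ x ∈ O2)
    (D : K2Datum ϖ p O1 O2) : K2Datum (σ₀ ϖ) p O1' O2' where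
  w := σ D.w
  θ := σ D.θ
  a := σ₀ D.a
  hcomap := fun y => by
    obtain ⟨x, rfl⟩ := σ₀.surjective y
    rw [← hσ, hO1, hO2]
    exact D.hcomap x
  pi_nonunit1 := by
    rw [← hσ, ← map_inv₀, hO1]
    exact D.pi_nonunit1
  pi_nonunit2 := by
    rw [← hσ, ← map_inv₀, hO2]
    exact D.pi_nonunit2
  unif1 := fun y hy hy' => by
    obtain ⟨x, rfl⟩ := σ.surjective y
    refine piO_map σ₀ σ hσ hO1 (D.unif1 x ((hO1 x).mp hy) fun h => hy' ?_)
    rw [← map_inv₀]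
    exact (hO1 _).mpr h
  hw1 := by
    have h := piO_map σ₀ σ hσ hO1 D.hw1
    rwa [map_sub, map_one] at h
  hw2 := piO_map σ₀ σ hσ hO2 D.hw2
  hθ1 := (hO1 _).mpr D.hθ1
  hθ2 := (hO2 _).mpr D.hθ2
  ha := by
    rw [← hσ]
    exact (hO1 _).mpr D.ha
  hθp := by
    have h := piO_map σ₀ σ hσ hO2 D.hθp
    rwa [map_sub, map_pow, hσ] at h
  hind := fun c hc h i => by
    have hc' : ∀ i, algebraMap F₀ F (σ₀.symm (c i)) ∈ O1 := fun i => by
      rw [← hO1, hσ, σ₀.apply_symm_apply]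
      exact hc i
    have hsum : PiO ϖ O2 (∑ i, algebraMap F₀ F (σ₀.symm (c i)) * D.θ ^ (i : ℕ)) := by
      apply piO_of_map σ₀ σ hσ hO2
      have e : σ (∑ i, algebraMap F₀ F (σ₀.symm (c i)) * D.θ ^ (i : ℕ))
          = ∑ i, algebraMap G₀ G (c i) * σ D.θ ^ (i : ℕ) := by
        rw [map_sum]
        refine Finset.sum_congr rfl fun i _ => ?_
        rw [map_mul, map_pow, hσ, σ₀.apply_symm_apply]
      rw [e]
      exact h
    obtain ⟨c', hc'', h'⟩ := D.hind (fun i => σ₀.symm (c i)) hc' hsum i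
    refine ⟨σ₀ c', ?_, ?_⟩
    · rw [← hσ]
      exact (hO1 _).mpr hc''
    · rw [← map_mul, ← h', σ₀.apply_symm_apply]
  hp := by
    obtain ⟨c', hc', h⟩ := D.hp
    refine ⟨σ₀ c', ?_, ?_⟩
    · rw [← hσ]
      exact (hO1 _).mpr hc'
    · rw [← map_mul, ← h, map_natCast]
  hrank := by
    rw [← D.hrank]
    symm
    exact Algebra.finrank_eq_of_equiv_equiv σ₀ σ (RingHom.ext fun x => (hσ x).symm)

end Fermat.Agent.T1B.K2Model94
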